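import Fermat.Agent.H13.S14Interfaces

/-!
# Block T of P-S14 (Galois / valuation side): interface statements

Targets of the block: `Fermat.Agent.H13.KummerDatumStatement` and
`Fermat.Agent.H13.LocalLemmaStatement`.  Every `def XStatement : Prop` below is one sub-task;
the owner proves `theorem NAME : Fermat.Agent.H53.XStatement` in his own directory.
-/

set_option autoImplicit false

open scoped NumberField nonZeroDivisors

namespace Fermat.Agent.H53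

/-- The absolute Galois group of `ℚ`. -/
abbrev GQ : Type := AlgebraicClosure ℚ ≃ₐ[ℚ] AlgebraicClosure ℚ

/-! ## Galois-module side -/

/-- **T-G0**: `cycloExp` computes the action on `p`-th roots of unity. -/
def CycloExpStatement : Prop :=
  ∀ (p : ℕ) [Fact p.Prime] (ζ : AlgebraicClosure ℚ), ζ ^ p = 1 →
    ∀ σ : GQ, σ ζ = ζ ^ (ExtCitation.cycloExp p σ)

/-- **T-G1**: the cocycle of a non-split admissible extension. -/
def CocycleStatement : Prop :=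
  ∀ (p : ℕ) [Fact p.Prime] (_ : 3 ≤ p) (V : Type) [AddCommGroup V] [Module (ZMod p) V]
    [DistribMulAction GQ V] [SMulCommClass GQ (ZMod p) V] (C : Submodule (ZMod p) V),
    ExtCitation.IsAdmissibleExtensionCts p V C → ¬ ExtCitation.SplitsGlobally C →
    ∃ b : GQ → ZMod p,
      (∀ σ τ : GQ, b (σ * τ) = (ExtCitation.cycloExp p τ : ZMod p) * b σ + b τ) ∧
      (∃ τ : GQ, (ExtCitation.cycloExp p τ : ZMod p) = 1 ∧ b τ ≠ 0) ∧
      IsOpen {σ : GQ | (ExtCitation.cycloExp p σ : ZMod p) = 1 ∧ b σ = 0} ∧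
      (∀ ℓ : ℕ, ℓ.Prime → ℓ ≠ p → ∀ A : ValuationSubring (AlgebraicClosure ℚ),
        A.LiesOverPrime ℓ → ∀ τ ∈ A.inertiaSubgroupIn ℚ,
          (ExtCitation.cycloExp p τ : ZMod p) = 1 ∧ b τ = 0) ∧
      (∀ A : ValuationSubring (AlgebraicClosure ℚ), A.LiesOverPrime p →
        ∀ τ ∈ A.decompositionSubgroup ℚ, (ExtCitation.cycloExp p τ : ZMod p) = 1 → b τ = 0)

/-- **T-G2** (Hilbert 90 / Lagrange resolvent): a homomorphism `b : G_K → ℤ/p` with open kernel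
(`G_K` the stabiliser of `ζ`) is the Kummer character of some `A₀ ≠ 0`. -/
def Hilbert90Statement : Prop :=
  ∀ (p : ℕ) [Fact p.Prime] (ζ : AlgebraicClosure ℚ), IsPrimitiveRoot ζ p →
    ∀ b : GQ → ZMod p,
      (∀ σ τ : GQ, σ ζ = ζ → τ ζ = ζ → b (σ * τ) = b σ + b τ) →
      IsOpen {σ : GQ | σ ζ = ζ ∧ b σ = 0} →
      ∃ A₀ : AlgebraicClosure ℚ, A₀ ≠ 0 ∧ ∀ τ : GQ, τ ζ = ζ → τ A₀ = ζ ^ (b τ).val * A₀

/-- **T-G3**: the Kummer generator of a non-split admissible extension and its Galois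
properties. -/
def GaloisKummerStatement : Prop :=
  ∀ (p : ℕ) [Fact p.Prime] (_ : 3 ≤ p) (V : Type) [AddCommGroup V] [Module (ZMod p) V]
    [DistribMulAction GQ V] [SMulCommClass GQ (ZMod p) V] (C : Submodule (ZMod p) V),
    ExtCitation.IsAdmissibleExtensionCts p V C → ¬ ExtCitation.SplitsGlobally C →
    ∀ ζ : AlgebraicClosure ℚ, IsPrimitiveRoot ζ p →
    ∃ A₀ : AlgebraicClosure ℚ, A₀ ≠ 0 ∧
      (∀ τ : GQ, τ ζ = ζ → τ (A₀ ^ p) = A₀ ^ p) ∧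
      (∃ τ : GQ, τ ζ = ζ ∧ τ A₀ ≠ A₀) ∧
      (∀ (σ : GQ) (k : ℕ), σ ζ = ζ ^ k → ∀ τ : GQ, τ ζ = ζ →
        τ (σ A₀ / A₀ ^ (k ^ 2)) = σ A₀ / A₀ ^ (k ^ 2)) ∧
      (∀ ℓ : ℕ, ℓ.Prime → ℓ ≠ p → ∀ A : ValuationSubring (AlgebraicClosure ℚ),
        A.LiesOverPrime ℓ → ∀ τ ∈ A.inertiaSubgroupIn ℚ, τ ζ = ζ ∧ τ A₀ = A₀) ∧
      (∀ A : ValuationSubring (AlgebraicClosure ℚ), A.LiesOverPrime p →
        ∀ τ ∈ A.decompositionSubgroup ℚ, τ ζ = ζ → τ A₀ = A₀)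

/-- **T-G4** (Galois correspondence for `K = ℚ(ζ)`): an element of `ℚ̄` fixed by the stabiliser
of `ι ζ` lies in `ι K`. -/
def FixedFieldStatement : Prop :=
  ∀ (p : ℕ) [NeZero p] (K : Type) [Field K] [NumberField K] [IsCyclotomicExtension {p} ℚ K]
    (ι : K →ₐ[ℚ] AlgebraicClosure ℚ) (ζ : K), IsPrimitiveRoot ζ p →
    ∀ x : AlgebraicClosure ℚ, (∀ τ : GQ, τ (ι ζ) = ι ζ → τ x = x) → ∃ k : K, ι k = x

/-- **T-G5**: automorphisms of a number field lift to `ℚ̄`. -/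
def LiftAutStatement : Prop :=
  ∀ (K : Type) [Field K] [NumberField K] (ι : K →ₐ[ℚ] AlgebraicClosure ℚ) (σ : K ≃ₐ[ℚ] K),
    ∃ σ' : GQ, ∀ k : K, σ' (ι k) = ι (σ k)

/-! ## Profinite Hilbert theory over an intermediate field -/

/-- **T-P1** (transitivity): two places of `ℚ̄` over `ℓ` with the same restriction to an
intermediate field `L` are conjugate under `Gal(ℚ̄/L)`. -/
def TransitiveStatement : Prop :=
  ∀ (L : IntermediateField ℚ (AlgebraicClosure ℚ)) (A A' : ValuationSubring (AlgebraicClosure ℚ))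
    (ℓ : ℕ), ℓ.Prime → A.LiesOverPrime ℓ → (∀ y ∈ L, y ∈ A' ↔ y ∈ A) →
    ∃ ρ : GQ, (∀ y ∈ L, ρ y = y) ∧ ∀ x : AlgebraicClosure ℚ, x ∈ A' ↔ ρ x ∈ A

/-- **T-P2** (inertia correction): an element of the decomposition group acting trivially on the
residue field of `A ∩ L` agrees, modulo inertia, with an element of the decomposition group
fixing `L` pointwise. -/
def InertiaCorrectionStatement : Prop :=
  ∀ (L : IntermediateField ℚ (AlgebraicClosure ℚ)) (A : ValuationSubring (AlgebraicClosure ℚ))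
    (ℓ : ℕ), ℓ.Prime → A.LiesOverPrime ℓ →
    ∀ σ ∈ A.decompositionSubgroup ℚ, (∀ y ∈ L, y ∈ A → σ y - y ∈ A.nonunits) →
    ∃ ρ : GQ, (∀ y ∈ L, ρ y = y) ∧ ρ ∈ A.decompositionSubgroup ℚ ∧
      ρ⁻¹ * σ ∈ A.inertiaSubgroupIn ℚ

/-! ## Valuations of sums of powers -/

/-- **T-E0** (span): if `z` is a root of a monic polynomial of degree `p` over `ι K`, every
element of `ι K (z)` is a `ι K`-combination of `1, z, …, z^(p-1)`. -/
def SpanStatement : Prop :=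
  ∀ (p : ℕ) (K : Type) [Field K] [Algebra ℚ K] (ι : K →ₐ[ℚ] AlgebraicClosure ℚ)
    (z : AlgebraicClosure ℚ) (f : Polynomial K), f.Monic → f.natDegree = p →
    Polynomial.eval₂ (ι : K →+* AlgebraicClosure ℚ) z f = 0 →
    ∀ y ∈ IntermediateField.adjoin ℚ (Set.range ι ∪ {z}),
      ∃ c : ℕ → K, y = ∑ i ∈ Finset.range p, ι (c i) * z ^ i

/-- **T-E1** (valuation of a sum with pairwise distinct valuation classes): if `v(z)^p = v(d)`
with `d ∈ K` but `v(z) ∉ v(Kˣ)`, then `∑_{i<p} c_i z^i ∈ A` iff all `c_i^p d^i ∈ A`, and then all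
terms with `i ≠ 0` are non-units. -/
def SumValuationStatement : Prop :=
  ∀ (p : ℕ), p.Prime → ∀ (K : Type) [Field K] [Algebra ℚ K] (ι : K →ₐ[ℚ] AlgebraicClosure ℚ)
    (z : AlgebraicClosure ℚ) (d : K), d ≠ 0 →
    ∀ A : ValuationSubring (AlgebraicClosure ℚ), A.valuation (z ^ p) = A.valuation (ι d) →
    (∀ c : K, c ≠ 0 → A.valuation z ≠ A.valuation (ι c)) →
    ∀ c : ℕ → K,
      ((∑ i ∈ Finset.range p, ι (c i) * z ^ i) ∈ A ↔
        ∀ i ∈ Finset.range p, ι (c i ^ p * d ^ i) ∈ A) ∧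
      ((∑ i ∈ Finset.range p, ι (c i) * z ^ i) ∈ A →
        ∀ i ∈ Finset.range p, i ≠ 0 → ι (c i) * z ^ i ∈ A.nonunits)

/-- **T-M** (moving): in the situation of T-E1 (both for `z` and for `τ⁻¹ z`), an
automorphism `τ` fixing `ι K` pointwise with `τ z ∈ ι K (z)` agrees on `z` with an element of
the decomposition group of `A` fixing `ι K` pointwise. -/
def MoveStatement : Prop :=
  ∀ (p : ℕ), p.Prime → ∀ (K : Type) [Field K] [Algebra ℚ K] (ι : K →ₐ[ℚ] AlgebraicClosure ℚ)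
    (z : AlgebraicClosure ℚ) (f : Polynomial K), f.Monic → f.natDegree = p →
    Polynomial.eval₂ (ι : K →+* AlgebraicClosure ℚ) z f = 0 → ∀ d : K, d ≠ 0 →
    ∀ (A : ValuationSubring (AlgebraicClosure ℚ)) (ℓ : ℕ), ℓ.Prime → A.LiesOverPrime ℓ →
    ∀ τ : GQ, (∀ k : K, τ (ι k) = ι k) →
      τ z ∈ IntermediateField.adjoin ℚ (Set.range ι ∪ {z}) →
      A.valuation (z ^ p) = A.valuation (ι d) →
      (∀ c : K, c ≠ 0 → A.valuation z ≠ A.valuation (ι c)) →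
      A.valuation ((τ⁻¹ z) ^ p) = A.valuation (ι d) →
      (∀ c : K, c ≠ 0 → A.valuation (τ⁻¹ z) ≠ A.valuation (ι c)) →
      ∃ σ : GQ, σ ∈ A.decompositionSubgroup ℚ ∧ (∀ k : K, σ (ι k) = ι k) ∧ σ z = τ z

/-! ## Places of `ℚ̄` and primes of `K` -/

/-- **T-X1**: every nonzero prime of `𝓞 K` is the centre of a place of `ℚ̄`. -/
def PlaceOverPrimeStatement : Prop :=
  ∀ (K : Type) [Field K] [NumberField K] (ι : K →ₐ[ℚ] AlgebraicClosure ℚ) (P : Ideal (𝓞 K)),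
    P.IsPrime → P ≠ ⊥ →
    ∃ (A : ValuationSubring (AlgebraicClosure ℚ)) (ℓ : ℕ), ℓ.Prime ∧ A.LiesOverPrime ℓ ∧
      (∀ x : 𝓞 K, ι (x : K) ∈ A) ∧ (∀ x : 𝓞 K, ι (x : K) ∈ A.nonunits ↔ x ∈ P)

/-- **T-X2**: an element of `K` which is a unit at a place with centre `P` is a quotient of two
integers outside `P`. -/
def UnitFractionStatement : Prop :=
  ∀ (K : Type) [Field K] [NumberField K] (ι : K →ₐ[ℚ] AlgebraicClosure ℚ) (P : Ideal (𝓞 K))
    (A : ValuationSubring (AlgebraicClosure ℚ)) (ℓ : ℕ), ℓ.Prime → A.LiesOverPrime ℓ →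
    (∀ x : 𝓞 K, ι (x : K) ∈ A.nonunits ↔ x ∈ P) →
    ∀ k : K, A.valuation (ι k) = 1 →
      ∃ x y : 𝓞 K, x ∉ P ∧ y ∉ P ∧ k * (y : K) = (x : K)

/-- **T-C** (the place over `p` of the cyclotomic field): `π = ζ - 1` is a uniformizer with
`v(p) = v(π)^(p-1)`, the residue field is `𝔽_p`, and valuations detect divisibility by powers of
`π` and by `p` in `𝓞 K`. -/
def CycloLocalStatement : Prop :=
  ∀ (p : ℕ) [Fact p.Prime] (_ : 3 ≤ p) (K : Type) [Field K] [NumberField K]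
    [IsCyclotomicExtension {p} ℚ K] (ι : K →ₐ[ℚ] AlgebraicClosure ℚ) (ζ : K)
    (hζ : IsPrimitiveRoot ζ p) (A : ValuationSubring (AlgebraicClosure ℚ)), A.LiesOverPrime p →
    A.valuation (ι (ζ - 1)) < 1 ∧
    A.valuation ((p : ℕ) : AlgebraicClosure ℚ) = A.valuation (ι (ζ - 1)) ^ (p - 1) ∧
    (∀ k : K, k ≠ 0 → ∃ j : ℤ, A.valuation (ι k) = A.valuation (ι (ζ - 1)) ^ j) ∧
    (∀ x : 𝓞 K, ∃ c : ℤ, ι ((x : K) - (c : K)) ∈ A.nonunits) ∧
    (∀ (x : 𝓞 K) (n : ℕ), A.valuation (ι (x : K)) ≤ A.valuation (ι (ζ - 1)) ^ n →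
      (hζ.toInteger - 1) ^ n ∣ x) ∧
    (∀ x : 𝓞 K, A.valuation (ι (x : K)) ≤ A.valuation ((p : ℕ) : AlgebraicClosure ℚ) →
      ((p : ℕ) : 𝓞 K) ∣ x)

/-! ## Assemblies -/

/-- **T-S**: a Kummer generator fixed by inertia outside `p` and by `D ∩ G_K` at `p` has a
singular `p`-th power. -/
def SingularStatement : Prop :=
  ∀ (p : ℕ) [Fact p.Prime] (_ : 3 ≤ p) (K : Type) [Field K] [NumberField K]
    [IsCyclotomicExtension {p} ℚ K] (ι : K →ₐ[ℚ] AlgebraicClosure ℚ) (ζ : K)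
    (_ : IsPrimitiveRoot ζ p) (α : K) (A₀ : AlgebraicClosure ℚ), α ≠ 0 → A₀ ^ p = ι α →
    (∀ ℓ : ℕ, ℓ.Prime → ℓ ≠ p → ∀ A : ValuationSubring (AlgebraicClosure ℚ),
      A.LiesOverPrime ℓ → ∀ τ ∈ A.inertiaSubgroupIn ℚ, τ (ι ζ) = ι ζ ∧ τ A₀ = A₀) →
    (∀ A : ValuationSubring (AlgebraicClosure ℚ), A.LiesOverPrime p →
      ∀ τ ∈ A.decompositionSubgroup ℚ, τ (ι ζ) = ι ζ → τ A₀ = A₀) →
    Fermat.Agent.H13.IsSingular p α

end Fermat.Agent.H53
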