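import Fermat.Agent.H53.FrobeniusExists
import Fermat.Agent.H53.S14T.Interfaces

/-!
# Profinite Hilbert theory over an intermediate field (P-S14, T-P1 and T-P2)
-/

set_option autoImplicit false
set_option linter.style.haveILetI false
set_option linter.unusedSectionVars false

noncomputable section

namespace Fermat.Agent.H53

open scoped Pointwise

section Setup

variable (L : IntermediateField ℚ (AlgebraicClosure ℚ))

/-- The algebraic integers of `ℚ̄` lying in `L`, as a subring of the ring of all algebraic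
integers. -/
def intRingIn : Subring (intRing (AlgebraicClosure ℚ)) :=
  Subring.comap (intRing (AlgebraicClosure ℚ)).subtype L.toSubring

theorem mem_intRingIn_iff {b : intRing (AlgebraicClosure ℚ)} :
    b ∈ intRingIn L ↔ (b : AlgebraicClosure ℚ) ∈ L := Iff.rfl

instance intRing_isInvariantSubring_over :
    IsInvariantSubring (AlgebraicClosure ℚ ≃ₐ[L] AlgebraicClosure ℚ)
      (intRing (AlgebraicClosure ℚ)) where
  smul_mem σ x hx := by
    rw [mem_intRing_iff] at hx ⊢
    exact map_isIntegral_int (σ : AlgebraicClosure ℚ →+* AlgebraicClosure ℚ) hx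

theorem intRing_coe_smul_over (σ : AlgebraicClosure ℚ ≃ₐ[L] AlgebraicClosure ℚ)
    (b : intRing (AlgebraicClosure ℚ)) :
    ((σ • b : intRing (AlgebraicClosure ℚ)) : AlgebraicClosure ℚ) = σ (b : AlgebraicClosure ℚ) :=
  rfl

instance intRingIn_smulCommClass :
    SMulCommClass (AlgebraicClosure ℚ ≃ₐ[L] AlgebraicClosure ℚ) (intRingIn L)
      (intRing (AlgebraicClosure ℚ)) where
  smul_comm σ r b := by
    apply Subtype.ext
    show σ ((r : intRing (AlgebraicClosure ℚ)) * b : intRing (AlgebraicClosure ℚ)).1 =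
      ((r : intRing (AlgebraicClosure ℚ)) * (σ • b) : intRing (AlgebraicClosure ℚ)).1
    rw [Subring.coe_mul, Subring.coe_mul, map_mul, intRing_coe_smul_over]
    congr 1
    have hr : ((r : intRing (AlgebraicClosure ℚ)) : AlgebraicClosure ℚ) ∈ L := r.2
    exact σ.commutes ⟨_, hr⟩

theorem intRingIn_algebraMap_coe (r : intRingIn L) :
    ((algebraMap (intRingIn L) (intRing (AlgebraicClosure ℚ)) r : intRing (AlgebraicClosure ℚ)) :
      AlgebraicClosure ℚ) = ((r : intRing (AlgebraicClosure ℚ)) : AlgebraicClosure ℚ) := rfl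

theorem intRingIn_isInvariant :
    Algebra.IsInvariant (intRingIn L) (intRing (AlgebraicClosure ℚ))
      (AlgebraicClosure ℚ ≃ₐ[L] AlgebraicClosure ℚ) := by
  haveI := isGalois_algebraicClosure_rat
  refine ⟨fun b hb => ?_⟩
  have hfix : ∀ σ : AlgebraicClosure ℚ ≃ₐ[L] AlgebraicClosure ℚ,
      σ (b : AlgebraicClosure ℚ) = b := fun σ => by
    have := congrArg Subtype.val (hb σ)
    exact this
  obtain ⟨q, hq⟩ := (InfiniteGalois.mem_range_algebraMap_iff_fixed (k := L)
    (b : AlgebraicClosure ℚ)).mpr hfix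
  have hbL : (b : AlgebraicClosure ℚ) ∈ L := by
    rw [← hq]
    exact q.2
  exact ⟨⟨b, hbL⟩, rfl⟩

theorem intRing_continuousSMul_over :
    letI : TopologicalSpace (intRing (AlgebraicClosure ℚ)) := ⊥
    ContinuousSMul (AlgebraicClosure ℚ ≃ₐ[L] AlgebraicClosure ℚ)
      (intRing (AlgebraicClosure ℚ)) := by
  letI : TopologicalSpace (intRing (AlgebraicClosure ℚ)) := ⊥
  haveI : DiscreteTopology (intRing (AlgebraicClosure ℚ)) := ⟨rfl⟩
  rw [continuousSMul_iff_stabilizer_isOpen]
  intro b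
  have : (MulAction.stabilizer (AlgebraicClosure ℚ ≃ₐ[L] AlgebraicClosure ℚ) b :
        Set (AlgebraicClosure ℚ ≃ₐ[L] AlgebraicClosure ℚ)) =
      (MulAction.stabilizer (AlgebraicClosure ℚ ≃ₐ[L] AlgebraicClosure ℚ)
        (b : AlgebraicClosure ℚ) : Set (AlgebraicClosure ℚ ≃ₐ[L] AlgebraicClosure ℚ)) := by
    ext σ
    simp only [SetLike.mem_coe, MulAction.mem_stabilizer_iff]
    exact Subtype.ext_iff
  rw [this]
  haveI := isGalois_algebraicClosure_rat
  haveI : Algebra.IsIntegral L (AlgebraicClosure ℚ) := Algebra.IsIntegral.tower_top (R := ℚ)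
  exact stabilizer_isOpen_of_isIntegral (K := L) (b : AlgebraicClosure ℚ)

end Setup

section Bridge

/-- Transport of membership along a ring homomorphism which maps the complement of the centre of
`A'` into the complement of the centre of `A`. -/
theorem map_mem_of_center {ℓ : ℕ} (hℓ : ℓ.Prime) (A A' : ValuationSubring (AlgebraicClosure ℚ))
    (hA' : ((ℓ : ℕ) : AlgebraicClosure ℚ) ∈ A'.nonunits)
    (f : AlgebraicClosure ℚ →+* AlgebraicClosure ℚ)
    (h : ∀ s : intRing (AlgebraicClosure ℚ), (s : AlgebraicClosure ℚ) ∉ A'.nonunits →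
      f (s : AlgebraicClosure ℚ) ∉ A.nonunits)
    {x : AlgebraicClosure ℚ} (hx : x ∈ A') : f x ∈ A := by
  haveI := isGalois_algebraicClosure_rat
  obtain ⟨s, b, hs, hb⟩ := exists_intRing_fraction hℓ A' hA' hx
  have hfs : f (s : AlgebraicClosure ℚ) ∉ A.nonunits := h s hs
  obtain ⟨hfs0, hfsinv⟩ := inv_mem_of_not_mem_nonunits A hfs
  have hfb : f (b : AlgebraicClosure ℚ) ∈ A := by
    apply intRing_le A
    rw [mem_intRing_iff]
    exact map_isIntegral_int f b.2
  have : f x = (f (s : AlgebraicClosure ℚ))⁻¹ * f (b : AlgebraicClosure ℚ) := by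
    rw [hb, map_mul]
    field_simp
  rw [this]
  exact mul_mem hfsinv hfb

/-- Transport of "difference is a non-unit" from algebraic integers to the valuation ring. -/
theorem sub_mem_nonunits_of_center {ℓ : ℕ} (hℓ : ℓ.Prime)
    (A : ValuationSubring (AlgebraicClosure ℚ))
    (hA : ((ℓ : ℕ) : AlgebraicClosure ℚ) ∈ A.nonunits)
    (f g : AlgebraicClosure ℚ →+* AlgebraicClosure ℚ)
    (hf : ∀ s : intRing (AlgebraicClosure ℚ), (s : AlgebraicClosure ℚ) ∉ A.nonunits →
      f (s : AlgebraicClosure ℚ) ∉ A.nonunits)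
    (hg : ∀ s : intRing (AlgebraicClosure ℚ), (s : AlgebraicClosure ℚ) ∉ A.nonunits →
      g (s : AlgebraicClosure ℚ) ∉ A.nonunits)
    (hfg : ∀ b : intRing (AlgebraicClosure ℚ),
      f (b : AlgebraicClosure ℚ) - g (b : AlgebraicClosure ℚ) ∈ A.nonunits)
    {x : AlgebraicClosure ℚ} (hx : x ∈ A) : f x - g x ∈ A.nonunits := by
  haveI := isGalois_algebraicClosure_rat
  obtain ⟨s, b, hs, hb⟩ := exists_intRing_fraction hℓ A hA hx
  have hfs : f (s : AlgebraicClosure ℚ) ∉ A.nonunits := hf s hs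
  have hgs : g (s : AlgebraicClosure ℚ) ∉ A.nonunits := hg s hs
  have hgx : g x ∈ A := map_mem_of_center hℓ A A hA g hg hx
  apply mem_nonunits_of_mul_mem_nonunits A hfs
  have : f (s : AlgebraicClosure ℚ) * (f x - g x) =
      (f (b : AlgebraicClosure ℚ) - g (b : AlgebraicClosure ℚ)) -
        (f (s : AlgebraicClosure ℚ) - g (s : AlgebraicClosure ℚ)) * g x := by
    rw [hb, map_mul, map_mul]; ring
  rw [this]
  exact sub_mem (hfg b) (nonunits_mul_mem A (hfg s) hgx)

/-- Membership in the decomposition subgroup from preservation of the valuation ring. -/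
theorem mem_decompositionSubgroup_of (A : ValuationSubring (AlgebraicClosure ℚ)) (σ : GQ)
    (h1 : ∀ x ∈ A, σ x ∈ A) (h2 : ∀ x ∈ A, σ⁻¹ x ∈ A) : σ ∈ A.decompositionSubgroup ℚ := by
  rw [MulAction.mem_stabilizer_iff]
  ext x
  rw [ValuationSubring.mem_pointwise_smul_iff_inv_smul_mem]
  constructor
  · intro h
    have := h1 _ h
    rwa [← AlgEquiv.smul_def, smul_inv_smul] at this
  · intro h
    exact h2 _ h

theorem apply_mem_of_mem_decompositionSubgroup (A : ValuationSubring (AlgebraicClosure ℚ))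
    {σ : GQ} (hσ : σ ∈ A.decompositionSubgroup ℚ) {x : AlgebraicClosure ℚ} (hx : x ∈ A) :
    σ x ∈ A := by
  have h : σ • A = A := hσ
  have : σ • x ∈ σ • A := ValuationSubring.smul_mem_pointwise_smul σ x A hx
  rw [h] at this
  exact this

theorem apply_mem_nonunits_of_mem_decompositionSubgroup
    (A : ValuationSubring (AlgebraicClosure ℚ))
    {σ : GQ} (hσ : σ ∈ A.decompositionSubgroup ℚ) {x : AlgebraicClosure ℚ}
    (hx : x ∈ A.nonunits) : σ x ∈ A.nonunits := by
  rw [ValuationSubring.mem_nonunits_iff_or] at hx ⊢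
  rcases hx with hx | hx
  · left; rw [hx, map_zero]
  · right
    intro h
    apply hx
    have := apply_mem_of_mem_decompositionSubgroup A (inv_mem hσ) h
    rwa [← map_inv₀, ← AlgEquiv.mul_apply, inv_mul_cancel, AlgEquiv.one_apply] at this

theorem apply_not_mem_nonunits_of_mem_decompositionSubgroup
    (A : ValuationSubring (AlgebraicClosure ℚ))
    {σ : GQ} (hσ : σ ∈ A.decompositionSubgroup ℚ) {x : AlgebraicClosure ℚ}
    (hx : x ∉ A.nonunits) : σ x ∉ A.nonunits := by
  intro h
  apply hx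
  have := apply_mem_nonunits_of_mem_decompositionSubgroup A (inv_mem hσ) h
  rwa [← AlgEquiv.mul_apply, inv_mul_cancel, AlgEquiv.one_apply] at this

/-- Membership in the inertia subgroup from trivial action on the residue field. -/
theorem mem_inertiaSubgroupIn_of (A : ValuationSubring (AlgebraicClosure ℚ)) (σ : GQ)
    (hσ : σ ∈ A.decompositionSubgroup ℚ) (h : ∀ x ∈ A, σ x - x ∈ A.nonunits) :
    σ ∈ A.inertiaSubgroupIn ℚ := by
  refine ⟨⟨σ, hσ⟩, ?_, rfl⟩
  show (⟨σ, hσ⟩ : A.decompositionSubgroup ℚ) ∈ A.inertiaSubgroup ℚ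
  rw [ValuationSubring.inertiaSubgroup, MonoidHom.mem_ker]
  ext x
  obtain ⟨a, rfl⟩ := IsLocalRing.residue_surjective x
  show (⟨σ, hσ⟩ : A.decompositionSubgroup ℚ) • (IsLocalRing.residue A a) = IsLocalRing.residue A a
  rw [← IsLocalRing.ResidueField.residue_smul, ← sub_eq_zero, ← map_sub,
    IsLocalRing.residue_eq_zero_iff, ← ValuationSubring.coe_mem_nonunits_iff]
  exact h a a.2

theorem mem_nonunits_iff_of_mem_iff (L : IntermediateField ℚ (AlgebraicClosure ℚ))
    (A A' : ValuationSubring (AlgebraicClosure ℚ)) (h : ∀ y ∈ L, y ∈ A' ↔ y ∈ A)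
    {y : AlgebraicClosure ℚ} (hy : y ∈ L) : y ∈ A'.nonunits ↔ y ∈ A.nonunits := by
  rw [ValuationSubring.mem_nonunits_iff_or, ValuationSubring.mem_nonunits_iff_or,
    h y⁻¹ (inv_mem hy)]

end Bridge

section Main

/-- **T-P1**: transitivity of `Gal(ℚ̄/L)` on the places of `ℚ̄` with a given restriction to
`L`. -/
theorem transitiveStatement : TransitiveStatement := by
  intro L A A' ℓ hℓ hA hAA'
  haveI := isGalois_algebraicClosure_rat
  have hℓL : ((ℓ : ℕ) : AlgebraicClosure ℚ) ∈ L := natCast_mem L ℓ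
  have hA0 : ((ℓ : ℕ) : AlgebraicClosure ℚ) ∈ A.nonunits := hA
  have hA' : ((ℓ : ℕ) : AlgebraicClosure ℚ) ∈ A'.nonunits :=
    (mem_nonunits_iff_of_mem_iff L A A' hAA' hℓL).mpr hA0
  have hunder : (centerIdeal A').under (intRingIn L) = (centerIdeal A).under (intRingIn L) := by
    ext r
    rw [Ideal.under_def, Ideal.under_def, Ideal.mem_comap, Ideal.mem_comap, mem_centerIdeal_iff,
      mem_centerIdeal_iff]
    exact mem_nonunits_iff_of_mem_iff L A A' hAA' r.2
  letI : TopologicalSpace (intRing (AlgebraicClosure ℚ)) := ⊥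
  haveI : DiscreteTopology (intRing (AlgebraicClosure ℚ)) := ⟨rfl⟩
  haveI := intRing_continuousSMul_over L
  haveI := intRingIn_isInvariant L
  obtain ⟨g, hg⟩ := Algebra.IsInvariant.exists_smul_of_under_eq_of_profinite
    (A := intRingIn L) (G := AlgebraicClosure ℚ ≃ₐ[L] AlgebraicClosure ℚ)
    (centerIdeal A') (centerIdeal A) hunder
  have hg' : centerIdeal A' = g⁻¹ • centerIdeal A := by
    rw [hg, inv_smul_smul]
  refine ⟨g.restrictScalars ℚ, fun y hy => g.commutes ⟨y, hy⟩, fun x => ⟨fun hx => ?_, fun hx => ?_⟩⟩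
  · refine map_mem_of_center hℓ A A' hA' ((g.restrictScalars ℚ : GQ) : _ →+* _) ?_ hx
    intro s hs h
    apply hs
    have h1 : g • s ∈ centerIdeal A := h
    rw [hg, Ideal.smul_mem_pointwise_smul_iff] at h1
    exact h1
  · have h2 := map_mem_of_center hℓ A' A hA0 ((g⁻¹.restrictScalars ℚ : GQ) : _ →+* _) ?_ hx
    · have h3 : (g⁻¹.restrictScalars ℚ : GQ) ((g.restrictScalars ℚ : GQ) x) = x := by
        show g⁻¹ (g x) = x
        rw [← AlgEquiv.mul_apply, inv_mul_cancel, AlgEquiv.one_apply]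
      have h4 : ((g⁻¹.restrictScalars ℚ : GQ) : AlgebraicClosure ℚ →+* AlgebraicClosure ℚ)
          ((g.restrictScalars ℚ : GQ) x) = x := h3
      rwa [h4] at h2
    · intro s hs h
      apply hs
      have h1 : g⁻¹ • s ∈ centerIdeal A' := h
      rw [hg', Ideal.smul_mem_pointwise_smul_iff] at h1
      exact h1

theorem smul_centerIdeal_eq_of_mem_decompositionSubgroup
    (A : ValuationSubring (AlgebraicClosure ℚ)) {σ : GQ} (hσ : σ ∈ A.decompositionSubgroup ℚ) :
    σ • centerIdeal A = centerIdeal A := by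
  ext b
  rw [Ideal.mem_pointwise_smul_iff_inv_smul_mem, mem_centerIdeal_iff, mem_centerIdeal_iff]
  constructor
  · intro h
    have := apply_mem_nonunits_of_mem_decompositionSubgroup A hσ h
    have h2 : σ ((σ⁻¹ • b : intRing (AlgebraicClosure ℚ)) : AlgebraicClosure ℚ) =
        (b : AlgebraicClosure ℚ) := by
      show σ (σ⁻¹ (b : AlgebraicClosure ℚ)) = b
      rw [← AlgEquiv.mul_apply, mul_inv_cancel, AlgEquiv.one_apply]
    rwa [h2] at this
  · intro h
    exact apply_mem_nonunits_of_mem_decompositionSubgroup A (inv_mem hσ) h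

/-- **T-P2**: inertia correction. -/
theorem inertiaCorrectionStatement : InertiaCorrectionStatement := by
  intro L A ℓ hℓ hA σ hσ hres
  haveI := isGalois_algebraicClosure_rat
  have hA0 : ((ℓ : ℕ) : AlgebraicClosure ℚ) ∈ A.nonunits := hA
  letI : TopologicalSpace (intRing (AlgebraicClosure ℚ)) := ⊥
  haveI : DiscreteTopology (intRing (AlgebraicClosure ℚ)) := ⟨rfl⟩
  haveI := intRing_continuousSMul_over L
  haveI := intRingIn_isInvariant L
  haveI hLO : (centerIdeal A).LiesOver ((centerIdeal A).under (intRingIn L)) := ⟨rfl⟩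
  have hσQ : σ • centerIdeal A = centerIdeal A :=
    smul_centerIdeal_eq_of_mem_decompositionSubgroup A hσ
  let e : intRing (AlgebraicClosure ℚ) ≃+* intRing (AlgebraicClosure ℚ) :=
    MulSemiringAction.toRingEquiv GQ (intRing (AlgebraicClosure ℚ)) σ
  have he : centerIdeal A = (centerIdeal A).map
      (e : intRing (AlgebraicClosure ℚ) →+* intRing (AlgebraicClosure ℚ)) := by
    conv_lhs => rw [← hσQ]
    rfl
  let φ₀ : (intRing (AlgebraicClosure ℚ) ⧸ centerIdeal A) ≃+*
      (intRing (AlgebraicClosure ℚ) ⧸ centerIdeal A) :=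
    Ideal.quotientEquiv (centerIdeal A) (centerIdeal A) e he
  have hφ₀ : ∀ b : intRing (AlgebraicClosure ℚ),
      φ₀ (Ideal.Quotient.mk (centerIdeal A) b) = Ideal.Quotient.mk (centerIdeal A) (σ • b) :=
    fun b => rfl
  let φ : (intRing (AlgebraicClosure ℚ) ⧸ centerIdeal A) ≃ₐ[
      intRingIn L ⧸ (centerIdeal A).under (intRingIn L)]
      (intRing (AlgebraicClosure ℚ) ⧸ centerIdeal A) :=
    AlgEquiv.ofRingEquiv (f := φ₀) (by
      intro r
      obtain ⟨r, rfl⟩ := Ideal.Quotient.mk_surjective r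
      rw [Ideal.Quotient.algebraMap_mk_of_liesOver, hφ₀, Ideal.Quotient.eq, mem_centerIdeal_iff]
      have hrL : ((r : intRing (AlgebraicClosure ℚ)) : AlgebraicClosure ℚ) ∈ L := r.2
      have hrA : ((r : intRing (AlgebraicClosure ℚ)) : AlgebraicClosure ℚ) ∈ A :=
        intRing_le A (r : intRing (AlgebraicClosure ℚ)).2
      exact hres _ hrL hrA)
  obtain ⟨⟨g, hgQ⟩, hρ⟩ := Ideal.Quotient.stabilizerHom_surjective_of_profinite
    (G := AlgebraicClosure ℚ ≃ₐ[L] AlgebraicClosure ℚ)
    ((centerIdeal A).under (intRingIn L)) (centerIdeal A) φ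
  have hρσ : ∀ b : intRing (AlgebraicClosure ℚ),
      σ (b : AlgebraicClosure ℚ) - g (b : AlgebraicClosure ℚ) ∈ A.nonunits := by
    intro b
    have h1 := congrArg (fun f => f (Ideal.Quotient.mk (centerIdeal A) b)) hρ
    simp only [Ideal.Quotient.stabilizerHom_apply] at h1
    have h2 : φ (Ideal.Quotient.mk (centerIdeal A) b) =
        Ideal.Quotient.mk (centerIdeal A) (σ • b) := hφ₀ b
    rw [h2] at h1
    have h3 := Ideal.Quotient.eq.mp h1.symm
    exact h3
  have hρQ : g • centerIdeal A = centerIdeal A := hgQ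
  have hρinvQ : g⁻¹ • centerIdeal A = centerIdeal A := by
    rw [inv_smul_eq_iff]
    exact hρQ.symm
  have hρunit : ∀ s : intRing (AlgebraicClosure ℚ), (s : AlgebraicClosure ℚ) ∉ A.nonunits →
      ((g.restrictScalars ℚ : GQ) : AlgebraicClosure ℚ →+* AlgebraicClosure ℚ)
        (s : AlgebraicClosure ℚ) ∉ A.nonunits := by
    intro s hs h
    apply hs
    have h1 : g • s ∈ centerIdeal A := h
    have h2 : g • s ∈ g • centerIdeal A := by rw [hρQ]; exact h1
    rw [Ideal.smul_mem_pointwise_smul_iff] at h2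
    exact h2
  have hρinvunit : ∀ s : intRing (AlgebraicClosure ℚ), (s : AlgebraicClosure ℚ) ∉ A.nonunits →
      (((g.restrictScalars ℚ : GQ)⁻¹ : GQ) : AlgebraicClosure ℚ →+* AlgebraicClosure ℚ)
        (s : AlgebraicClosure ℚ) ∉ A.nonunits := by
    intro s hs h
    apply hs
    have h1 : g⁻¹ • s ∈ centerIdeal A := h
    have h2 : g⁻¹ • s ∈ g⁻¹ • centerIdeal A := by rw [hρinvQ]; exact h1
    rw [Ideal.smul_mem_pointwise_smul_iff] at h2
    exact h2
  have hσunit : ∀ s : intRing (AlgebraicClosure ℚ), (s : AlgebraicClosure ℚ) ∉ A.nonunits →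
      ((σ : GQ) : AlgebraicClosure ℚ →+* AlgebraicClosure ℚ)
        (s : AlgebraicClosure ℚ) ∉ A.nonunits :=
    fun s hs => apply_not_mem_nonunits_of_mem_decompositionSubgroup A hσ hs
  have hρD : (g.restrictScalars ℚ : GQ) ∈ A.decompositionSubgroup ℚ := by
    refine mem_decompositionSubgroup_of A _ (fun x hx => ?_) (fun x hx => ?_)
    · exact map_mem_of_center hℓ A A hA0 _ hρunit hx
    · exact map_mem_of_center hℓ A A hA0 _ hρinvunit hx
  refine ⟨g.restrictScalars ℚ, fun y hy => g.commutes ⟨y, hy⟩, hρD, ?_⟩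
  refine mem_inertiaSubgroupIn_of A _ (mul_mem (inv_mem hρD) hσ) (fun x hx => ?_)
  have h1 : σ x - (g.restrictScalars ℚ : GQ) x ∈ A.nonunits :=
    sub_mem_nonunits_of_center hℓ A hA0 (σ : GQ) (g.restrictScalars ℚ : GQ) hσunit hρunit
      hρσ hx
  have h2 := apply_mem_nonunits_of_mem_decompositionSubgroup A (inv_mem hρD) h1
  have h3 : ((g.restrictScalars ℚ : GQ)⁻¹) (σ x - (g.restrictScalars ℚ : GQ) x) =
      ((g.restrictScalars ℚ : GQ)⁻¹ * σ) x - x := by
    rw [map_sub, AlgEquiv.mul_apply]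
    congr 1
    rw [← AlgEquiv.mul_apply, inv_mul_cancel, AlgEquiv.one_apply]
  rwa [h3] at h2

end Main

end Fermat.Agent.H53
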