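import Fermat.Agent.H53.S14T.Profinite
import Fermat.Agent.H5.S14.CycloExp
import Fermat.Agent.H73.S14Cocycle
import Fermat.Agent.H36.S14_Hilbert90
import Fermat.Agent.H34.GaloisKummer
import Fermat.Agent.H39.S14TG45
import Fermat.Agent.H87.S14_Span
import Fermat.Agent.H16.S14SumValuation
import Fermat.Agent.H2.S14_Move
import Fermat.Agent.H49.S14.PlaceOverPrime
import Fermat.Agent.H49.S14.CycloLocal
import Fermat.Agent.H65.S14_Singular
import Fermat.Agent.H75.S14KummerDatum

/-!
# Block T of P-S14: the Kummer datum of a non-split admissible extension

Closed (hypothesis-free) assembly of the sub-tasks of block T.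
-/

set_option autoImplicit false

namespace Fermat.Agent.H53

/-- **T-M**, closed form. -/
theorem moveStatement : MoveStatement :=
  Fermat.Agent.H2.moveStatement_of_parts Fermat.Agent.H87.spanStatement
    Fermat.Agent.H16.sumValuation transitiveStatement

/-- **T-G3**, closed form. -/
theorem galoisKummerStatement : GaloisKummerStatement :=
  Fermat.Agent.H34.galoisKummer Fermat.Agent.H5.cycloExp_spec Fermat.Agent.H73.cocycleStatement
    Fermat.Agent.H36.hilbert90

/-- **T-S**, closed form. -/
theorem singularStatement : SingularStatement :=
  Fermat.Agent.H65.singularStatement_of_parts Fermat.Agent.H49.placeOverPrime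
    Fermat.Agent.H49.unitFraction moveStatement Fermat.Agent.H16.sumValuation
    Fermat.Agent.H87.spanStatement inertiaCorrectionStatement
    Fermat.Agent.H39.fixedFieldStatement

/-- **Block T, main statement**: the Kummer datum of a non-split admissible extension. -/
theorem kummerDatumStatement : Fermat.Agent.H13.KummerDatumStatement :=
  Fermat.Agent.H75.kummerDatum_of_parts galoisKummerStatement
    Fermat.Agent.H39.fixedFieldStatement Fermat.Agent.H39.liftAutStatement singularStatement

end Fermat.Agent.H53
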