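import Fermat.Agent.H53.S14T.KummerDatum
import Fermat.Agent.H89.S14LocalLemma

/-!
# Block T of P-S14: the local lemma at `p`, closed form
-/

set_option autoImplicit false

namespace Fermat.Agent.H53

/-- **Block T, local lemma** (closed form). -/
theorem localLemmaStatement : Fermat.Agent.H13.LocalLemmaStatement :=
  Fermat.Agent.H89.localLemma_of_parts Fermat.Agent.H49.cycloLocal moveStatement
    Fermat.Agent.H39.fixedFieldStatement

end Fermat.Agent.H53
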